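/-
P-S41 block (B3), Eichler-Shimura compatibility of the degeneracy maps, part 1 (helper98).

The general principle behind the compatibility of the period map with traces / Hecke operators:
if a weight two cusp form `T` of level `N` is, as a function, the sum of the translates
`g ∣[2] β r` of a weight two cusp form `g` of level `N'` by finitely many real matrices `β r` of
positive determinant, and `γ ∈ Γ₀(N)` permutes the `β r` up to elements `c r ∈ Γ₀(N')`
(`β r * γ = c r * β (σ r)`), then the period of `T` along `γ` is the sum of the periods of `g` along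
the `c r` (the "transfer" of the period homomorphism of `g`).
-/
import Fermat.Agent.S21.PeriodMap
import Fermat.Agent.Gateway.Hecke.CohPeriod

set_option autoImplicit false

open Complex Filter Function Topology CongruenceSubgroup ModularForm
open UpperHalfPlane hiding I
open Matrix.SpecialLinearGroup
open scoped Manifold Real MatrixGroups
open ModularCurve ModularCurve.Period
open Fermat.Agent.S21

namespace Fermat.Agent.S41.ES

open Fermat.Agent.Gateway.HeckeCohPeriod (slash_two_apply_of_det_pos)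

section General

variable {R : Type*} [Fintype R]

/-- The sum of the translates of a function on the upper half plane. -/
noncomputable def sumTranslate (β : R → GL (Fin 2) ℝ) (G : ℍ → ℂ) : ℍ → ℂ :=
  fun w => ∑ r, G (β r • w)

theorem isPrimitiveOf_sumTranslate {β : R → GL (Fin 2) ℝ} (hβ : ∀ r, 0 < (β r).val.det)
    {g G T : ℍ → ℂ} (hG : IsPrimitiveOf g G)
    (hT : ∀ τ, T τ = ∑ r, (g ∣[(2 : ℤ)] β r) τ) :
    IsPrimitiveOf T (sumTranslate β G) := by
  intro τ
  have h1 : (sumTranslate β G ∘ ofComplex)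
      = fun z : ℂ => ∑ r, ((fun w : ℍ => G (β r • w)) ∘ ofComplex) z := by
    funext z
    simp only [sumTranslate, Function.comp_apply]
  have h2 : T τ = ∑ r, g (β r • τ) * (((β r).val.det : ℂ) / denom (β r) τ ^ 2) := by
    rw [hT τ]
    exact Finset.sum_congr rfl fun r _ => slash_two_apply_of_det_pos g (hβ r) τ
  rw [h1, h2]
  exact HasDerivAt.fun_sum fun r _ => (hG.comp_smul (hβ r)) τ

/-- Equivariance of the sum of translates, with the explicit period. -/
theorem sumTranslate_smul_sub {N N' : ℕ} {β : R → GL (Fin 2) ℝ} {G : ℍ → ℂ}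
    (hG : IsEquivariantPrimitive (Gamma0 N') G) (γ : Gamma0 N) (σ : Equiv.Perm R)
    (c : R → Gamma0 N')
    (hc : ∀ r, β r * mapGL ℝ (γ : SL(2, ℤ)) = mapGL ℝ ((c r : Gamma0 N') : SL(2, ℤ)) * β (σ r))
    (z : ℍ) :
    sumTranslate β G ((γ : SL(2, ℤ)) • z) - sumTranslate β G z = ∑ r, hG.period (c r) := by
  have h1 : ∀ r, G (β r • ((γ : SL(2, ℤ)) • z)) = G (β (σ r) • z) + hG.period (c r) := by
    intro r
    have h2 : β r • ((γ : SL(2, ℤ)) • z) = ((c r : Gamma0 N') : SL(2, ℤ)) • (β (σ r) • z) := by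
      rw [ModularGroup.sl_moeb, ModularGroup.sl_moeb, ← mul_smul, ← mul_smul]
      exact congrArg (· • z) (hc r)
    rw [h2]
    have h3 := hG.sub_eq_period (c r) (β (σ r) • z)
    linear_combination h3
  have h4 : ∑ r, G (β (σ r) • z) = ∑ r, G (β r • z) :=
    Equiv.sum_comp σ (fun r => G (β r • z))
  simp only [sumTranslate]
  rw [Finset.sum_congr rfl fun r _ => h1 r, Finset.sum_add_distrib, h4]
  ring

end General

section Period

variable {R : Type*} [Fintype R] (N N' : ℕ) [NeZero N] [NeZero N']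

/-- **Transfer principle for periods.** If the cusp form `T` of level `N` is the sum of the
translates `g ∣[2] β r` of the cusp form `g` of level `N'`, and `γ ∈ Γ₀(N)` permutes the `β r` up
to elements `c r` of `Γ₀(N')`, then the period of `T` along `γ` is the sum of the periods of `g`
along the `c r`. -/
theorem periodMap_eq_sum_of_translates (g : CuspForm (Gamma0 N') 2) (T : CuspForm (Gamma0 N) 2)
    (β : R → GL (Fin 2) ℝ) (hβ : ∀ r, 0 < (β r).val.det)
    (hT : ∀ τ, T τ = ∑ r, ((⇑g : ℍ → ℂ) ∣[(2 : ℤ)] β r) τ)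
    (γ : Gamma0 N) (σ : Equiv.Perm R) (c : R → Gamma0 N')
    (hc : ∀ r, β r * mapGL ℝ (γ : SL(2, ℤ)) = mapGL ℝ ((c r : Gamma0 N') : SL(2, ℤ)) * β (σ r)) :
    periodMap N T (Additive.ofMul γ) = ∑ r, periodMap N' g (Additive.ofMul (c r)) := by
  obtain ⟨G, hG⟩ := exists_hasEquivariantPrimitive N' g
  obtain ⟨F, hF⟩ := exists_hasEquivariantPrimitive N T
  have hprim : IsPrimitiveOf (⇑T) (sumTranslate β G) :=
    isPrimitiveOf_sumTranslate hβ (g := ⇑g) hG.1 hT
  have hFprim : IsPrimitiveOf (⇑T) F := hF.1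
  have hconst := hFprim.sub_const hprim ((γ : SL(2, ℤ)) • UpperHalfPlane.I) UpperHalfPlane.I
  rw [periodMap_apply_aux N hF γ UpperHalfPlane.I]
  have hsum := sumTranslate_smul_sub hG.2.2.1 γ σ c hc UpperHalfPlane.I
  have hper : ∀ r, periodMap N' g (Additive.ofMul (c r)) = hG.2.2.1.period (c r) := by
    intro r
    rw [periodMap_apply_aux N' hG (c r) UpperHalfPlane.I]
    exact hG.2.2.1.sub_eq_period (c r) UpperHalfPlane.I
  rw [Finset.sum_congr rfl fun r _ => hper r, ← hsum]
  linear_combination hconst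

/-- **Transfer principle, conjugated embedding form.** Let `ι : Γ₀(N') →* Γ₀(N)` be given by
conjugation with a real matrix `α` of positive determinant, let `t r` be elements of `Γ₀(N)` which
`γ` permutes up to elements `ι (c r)` (`t r * γ = ι (c r) * t (σ r)`: e.g. a right transversal of
the range of `ι`), and let the cusp form `T` of level `N` be the sum of the translates
`g ∣[2] (α⁻¹ * t r)`. Then the period of `T` along `γ` is `∑ r, periodMap N' g (c r)`, the value at
`γ` of the transfer of the period homomorphism of `g`. -/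
theorem periodMap_eq_sum_of_conj (α : GL (Fin 2) ℝ) (hα : 0 < α.val.det)
    (ι : Gamma0 N' →* Gamma0 N)
    (hι : ∀ c : Gamma0 N', mapGL ℝ ((ι c : Gamma0 N) : SL(2, ℤ))
      = α * mapGL ℝ ((c : Gamma0 N') : SL(2, ℤ)) * α⁻¹)
    (g : CuspForm (Gamma0 N') 2) (T : CuspForm (Gamma0 N) 2) (t : R → Gamma0 N)
    (hT : ∀ τ, T τ = ∑ r, ((⇑g : ℍ → ℂ) ∣[(2 : ℤ)]
      (α⁻¹ * mapGL ℝ ((t r : Gamma0 N) : SL(2, ℤ)) : GL (Fin 2) ℝ)) τ)
    (γ : Gamma0 N) (σ : Equiv.Perm R) (c : R → Gamma0 N')
    (hc : ∀ r, t r * γ = ι (c r) * t (σ r)) :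
    periodMap N T (Additive.ofMul γ) = ∑ r, periodMap N' g (Additive.ofMul (c r)) := by
  refine periodMap_eq_sum_of_translates N N' g T
    (fun r => α⁻¹ * mapGL ℝ ((t r : Gamma0 N) : SL(2, ℤ))) (fun r => ?_) hT γ σ c (fun r => ?_)
  · have h1 : (α⁻¹ * mapGL ℝ ((t r : Gamma0 N) : SL(2, ℤ)) : GL (Fin 2) ℝ).val.det
        = (α.val.det)⁻¹ := by
      rw [Matrix.GeneralLinearGroup.coe_mul, Matrix.det_mul, val_det_mapGL, mul_one,
        Matrix.coe_units_inv, Matrix.det_nonsing_inv, Ring.inverse_eq_inv']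
    rw [h1]
    exact inv_pos.mpr hα
  · have h1 := congrArg (fun x : Gamma0 N => mapGL ℝ ((x : Gamma0 N) : SL(2, ℤ))) (hc r)
    simp only [Subgroup.coe_mul, map_mul] at h1
    rw [hι (c r)] at h1
    rw [mul_assoc, h1]
    group

end Period

end Fermat.Agent.S41.ES
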