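/-
P-S41 block (B3), Eichler-Shimura compatibility of the degeneracy maps, part 2 (helper98).

For an injective homomorphism `ι : Γ₀(N') →* Γ₀(N)` with finite index range which is given by
conjugation with a real matrix `β` of positive determinant (`ι c = β⁻¹ c β`), the trace
`trAlong β ι g` of the translate `g ∣[2] β` of a weight two cusp form `g` of level `N'` is a cusp
form of level `N`, and the period map intertwines it with the corestriction (transfer) along `ι`:
`corAlong ι (periodMap N' g) = periodMap N (trAlong β ι g)`.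
-/
import Fermat.Agent.S41.Defs
import Fermat.Agent.S41.ES.Transfer

set_option autoImplicit false

open Complex Filter Function Topology CongruenceSubgroup ModularForm
open UpperHalfPlane hiding I
open Matrix.SpecialLinearGroup
open scoped Manifold Real MatrixGroups
open ModularCurve ModularCurve.Period
open Fermat.Agent.S21
open ConjAct Pointwise

namespace Fermat.Agent.S41.ES

/-- A formula for Mathlib's trace of a cusp form with respect to an arbitrary system of
representatives of the cosets. -/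
theorem trace_apply_eq_sum {𝒢 ℋ : Subgroup (GL (Fin 2) ℝ)} [𝒢.IsFiniteRelIndex ℋ] {k : ℤ}
    {F : Type*} [FunLike F ℍ ℂ] [CuspFormClass F 𝒢 k] (f : F) {R : Type*} [Fintype R]
    (h : R → ℋ)
    (hbij : Function.Bijective (fun r => (QuotientGroup.mk (h r) : ℋ ⧸ 𝒢.subgroupOf ℋ)))
    (τ : ℍ) :
    CuspForm.trace ℋ f τ = ∑ r, ((⇑f : ℍ → ℂ) ∣[k] ((h r : GL (Fin 2) ℝ))⁻¹) τ := by
  rw [CuspForm.coe_trace, Finset.sum_apply]
  symm
  exact @Fintype.sum_bijective _ _ _ _ (Fintype.ofFinite _) _ _ hbij _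
    (fun q => SlashInvariantForm.quotientFunc f q τ)
    fun r => congrFun (SlashInvariantForm.quotientFunc_mk f (h r)).symm τ

section General

variable {N N' : ℕ} (β : GL (Fin 2) ℝ) (ι : Gamma0 N' →* Gamma0 N)

/-- `ι` is conjugation by `β`: `ι c = β⁻¹ c β`. -/
def IsConjBy : Prop :=
  ∀ c : Gamma0 N', mapGL ℝ ((ι c : Gamma0 N) : SL(2, ℤ))
    = β⁻¹ * mapGL ℝ ((c : Gamma0 N') : SL(2, ℤ)) * β

variable {β ι}

theorem mapGL_mem_conj_iff (hι : IsConjBy β ι) (x : Gamma0 N) :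
    mapGL ℝ ((x : Gamma0 N) : SL(2, ℤ))
        ∈ (toConjAct β⁻¹ • ((Gamma0 N' : Subgroup SL(2, ℤ)) : Subgroup (GL (Fin 2) ℝ)))
      ↔ x ∈ ι.range := by
  rw [map_inv, Subgroup.mem_inv_pointwise_smul_iff, toConjAct_smul]
  constructor
  · rintro ⟨c, hc, hcx⟩
    refine ⟨⟨c, hc⟩, ?_⟩
    apply Subtype.ext
    apply mapGL_injective (S := ℝ)
    rw [hι ⟨c, hc⟩]
    change β⁻¹ * mapGL ℝ c * β = _
    rw [hcx]
    group
  · rintro ⟨c, rfl⟩
    refine ⟨(c : SL(2, ℤ)), c.2, ?_⟩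
    rw [hι c]
    group

/-- The isomorphism of `Γ₀(N)` with its image in `GL(2, ℝ)`. -/
noncomputable def toGL (N : ℕ) :
    Gamma0 N →* ((Gamma0 N : Subgroup SL(2, ℤ)) : Subgroup (GL (Fin 2) ℝ)) :=
  (mapGL ℝ : SL(2, ℤ) →* GL (Fin 2) ℝ).subgroupMap (Gamma0 N)

theorem coe_toGL (x : Gamma0 N) :
    ((toGL N x : ((Gamma0 N : Subgroup SL(2, ℤ)) : Subgroup (GL (Fin 2) ℝ))) : GL (Fin 2) ℝ)
      = mapGL ℝ ((x : Gamma0 N) : SL(2, ℤ)) := rfl

theorem toGL_surjective : Function.Surjective (toGL N) :=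
  MonoidHom.subgroupMap_surjective _ _

theorem comap_toGL (hι : IsConjBy β ι) :
    ((toConjAct β⁻¹ • ((Gamma0 N' : Subgroup SL(2, ℤ)) : Subgroup (GL (Fin 2) ℝ))).subgroupOf
      ((Gamma0 N : Subgroup SL(2, ℤ)) : Subgroup (GL (Fin 2) ℝ))).comap (toGL N) = ι.range := by
  ext x
  rw [Subgroup.mem_comap, Subgroup.mem_subgroupOf, coe_toGL]
  exact mapGL_mem_conj_iff hι x

theorem isFiniteRelIndex_of_isConjBy (hι : IsConjBy β ι) [ι.range.FiniteIndex] :
    (toConjAct β⁻¹ • ((Gamma0 N' : Subgroup SL(2, ℤ)) : Subgroup (GL (Fin 2) ℝ))).IsFiniteRelIndex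
      ((Gamma0 N : Subgroup SL(2, ℤ)) : Subgroup (GL (Fin 2) ℝ)) := by
  refine ⟨?_⟩
  rw [Subgroup.relIndex, ← Subgroup.index_comap_of_surjective _ toGL_surjective, comap_toGL hι]
  exact Subgroup.FiniteIndex.index_ne_zero

/-- Representatives of the cosets of `ι.range` in `Γ₀(N)` give representatives of the cosets of
the conjugated group in the image of `Γ₀(N)` in `GL(2, ℝ)`. -/
theorem bijective_mk_toGL (hι : IsConjBy β ι) {R : Type*} (r : R → Gamma0 N)
    (hr : Function.Bijective (fun i => (r i : Gamma0 N ⧸ ι.range))) :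
    Function.Bijective (fun i => (QuotientGroup.mk (toGL N (r i)) :
      ((Gamma0 N : Subgroup SL(2, ℤ)) : Subgroup (GL (Fin 2) ℝ)) ⧸
        (toConjAct β⁻¹ • ((Gamma0 N' : Subgroup SL(2, ℤ)) : Subgroup (GL (Fin 2) ℝ))).subgroupOf
          ((Gamma0 N : Subgroup SL(2, ℤ)) : Subgroup (GL (Fin 2) ℝ)))) := by
  have key : ∀ a b : Gamma0 N,
      (QuotientGroup.mk (toGL N a) :
        ((Gamma0 N : Subgroup SL(2, ℤ)) : Subgroup (GL (Fin 2) ℝ)) ⧸
        (toConjAct β⁻¹ • ((Gamma0 N' : Subgroup SL(2, ℤ)) : Subgroup (GL (Fin 2) ℝ))).subgroupOf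
          ((Gamma0 N : Subgroup SL(2, ℤ)) : Subgroup (GL (Fin 2) ℝ))) = QuotientGroup.mk (toGL N b)
        ↔ (a : Gamma0 N ⧸ ι.range) = (b : Gamma0 N ⧸ ι.range) := by
    intro a b
    rw [QuotientGroup.eq, QuotientGroup.eq, ← map_inv, ← map_mul, ← comap_toGL hι,
      Subgroup.mem_comap]
  constructor
  · intro i i' h
    exact hr.1 ((key _ _).mp h)
  · intro y
    obtain ⟨y, rfl⟩ := QuotientGroup.mk_surjective y
    obtain ⟨x, rfl⟩ := toGL_surjective (N := N) y
    obtain ⟨i, hi⟩ := hr.2 (x : Gamma0 N ⧸ ι.range)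
    exact ⟨i, (key _ _).mpr hi⟩

variable (β ι)

/-- The trace along `ι` of a weight two cusp form: the trace of its translate by `β`. -/
noncomputable def trAlong (hι : IsConjBy β ι) [ι.range.FiniteIndex]
    (g : CuspForm (Gamma0 N') 2) : CuspForm (Gamma0 N) 2 :=
  haveI := isFiniteRelIndex_of_isConjBy hι
  CuspForm.trace ((Gamma0 N : Subgroup SL(2, ℤ)) : Subgroup (GL (Fin 2) ℝ))
    (CuspForm.translate g β)

variable {β ι}

/-- The trace along `ι` as a sum over representatives of `Γ₀(N) ⧸ ι.range`. -/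
theorem trAlong_apply (hι : IsConjBy β ι) [ι.range.FiniteIndex] (g : CuspForm (Gamma0 N') 2)
    {R : Type*} [Fintype R] (r : R → Gamma0 N)
    (hr : Function.Bijective (fun i => (r i : Gamma0 N ⧸ ι.range))) (τ : ℍ) :
    trAlong β ι hι g τ = ∑ i, ((⇑g : ℍ → ℂ) ∣[(2 : ℤ)]
      (β * mapGL ℝ (((r i)⁻¹ : Gamma0 N) : SL(2, ℤ)) : GL (Fin 2) ℝ)) τ := by
  haveI := isFiniteRelIndex_of_isConjBy hι
  have h1 := trace_apply_eq_sum (CuspForm.translate g β) (fun i => toGL N (r i))
    (bijective_mk_toGL hι r hr) τ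
  rw [trAlong, h1]
  refine Finset.sum_congr rfl fun i _ => ?_
  have h2 : (⇑(CuspForm.translate g β) : ℍ → ℂ) = (⇑g : ℍ → ℂ) ∣[(2 : ℤ)] β := rfl
  rw [h2, ← SlashAction.slash_mul, coe_toGL, ← map_inv]
  rfl

end General

section Main

variable {N N' : ℕ} [NeZero N] [NeZero N'] {β : GL (Fin 2) ℝ} {ι : Gamma0 N' →* Gamma0 N}

/-- **(I6b), general form.** The period map intertwines the corestriction along `ι` with the
trace along `ι`. -/
theorem corAlong_periodMap (hβ : 0 < β.val.det) (hι : IsConjBy β ι)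
    (hinj : Function.Injective ι) [ι.range.FiniteIndex] (g : CuspForm (Gamma0 N') 2) :
    corAlong ι hinj ℂ (periodMap N' g) = periodMap N (trAlong β ι hι g) := by
  refine AddMonoidHom.ext fun γa => ?_
  obtain ⟨γ, rfl⟩ : ∃ γ : Gamma0 N, Additive.ofMul γ = γa := ⟨Additive.toMul γa, rfl⟩
  letI : Fintype (Gamma0 N ⧸ ι.range) := Subgroup.fintypeQuotientOfFiniteIndex
  -- representatives of the left cosets
  let r : Gamma0 N ⧸ ι.range → Gamma0 N := Quotient.out
  have hr : Function.Bijective (fun i => (r i : Gamma0 N ⧸ ι.range)) := by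
    have : (fun i => (r i : Gamma0 N ⧸ ι.range)) = id := funext fun i => Quotient.out_eq' i
    rw [this]
    exact Function.bijective_id
  -- the action of `γ⁻¹` on the cosets
  have hex : ∀ i : Gamma0 N ⧸ ι.range, ∃ c : Gamma0 N',
      γ⁻¹ * r i = r ((γ⁻¹ : Gamma0 N) • i) * ι c := by
    intro i
    have h1 : ((γ⁻¹ * r i : Gamma0 N) : Gamma0 N ⧸ ι.range)
        = ((r ((γ⁻¹ : Gamma0 N) • i) : Gamma0 N) : Gamma0 N ⧸ ι.range) := by
      have h2 : ((r ((γ⁻¹ : Gamma0 N) • i) : Gamma0 N) : Gamma0 N ⧸ ι.range)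
          = (γ⁻¹ : Gamma0 N) • i := Quotient.out_eq' _
      rw [h2]
      conv_rhs => rw [← Quotient.out_eq' i]
      rfl
    have h3 := QuotientGroup.eq.mp h1.symm
    obtain ⟨c, hc⟩ := h3
    exact ⟨c, by rw [hc]; group⟩
  choose c hc using hex
  -- the corestriction at `γ⁻¹`
  have hcor := corAlong_apply_of_reps ι hinj ℂ (periodMap N' g) r hr γ⁻¹
    (fun i => (γ⁻¹ : Gamma0 N) • i) c hc
  -- the period of the trace at `γ`
  have hper := periodMap_eq_sum_of_conj N N' β⁻¹ (by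
      rw [Matrix.coe_units_inv, Matrix.det_nonsing_inv, Ring.inverse_eq_inv']
      exact inv_pos.mpr hβ) ι (fun x => by rw [hι x, inv_inv])
    g (trAlong β ι hι g) (fun i => (r i)⁻¹) (fun τ => by
      rw [trAlong_apply hι g r hr τ]
      refine Finset.sum_congr rfl fun i _ => ?_
      rw [inv_inv]) γ (MulAction.toPerm (γ⁻¹ : Gamma0 N)) (fun i => (c i)⁻¹) (fun i => by
      have h4 := congrArg (fun x : Gamma0 N => x⁻¹) (hc i)
      simp only [mul_inv_rev, inv_inv] at h4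
      rw [map_inv]
      exact h4)
  rw [hper]
  have h5 : ∀ i, periodMap N' g (Additive.ofMul (c i)⁻¹)
      = - periodMap N' g (Additive.ofMul (c i)) := fun i => by
    rw [ofMul_inv, map_neg]
  rw [Finset.sum_congr rfl fun i _ => h5 i, Finset.sum_neg_distrib, ← hcor, ofMul_inv, map_neg,
    neg_neg]

end Main

end Fermat.Agent.S41.ES
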