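/-
P-S41 block (B3), Eichler-Shimura compatibility of the degeneracy maps, part 3 (helper98).

The two trace maps `Tr₁, Tr₂ : S₂(Γ₀(N q)) → S₂(Γ₀(N))` attached to the two degeneracy maps
`incl, degConj : Γ₀(N q) → Γ₀(N)`, and **(I6b)**: the period map intertwines them with the
corestrictions `cor₁`, `cor₂` (with constants `1`).
-/
import Fermat.Agent.S41.ES.Trace

set_option autoImplicit false

open Complex Filter Function Topology CongruenceSubgroup ModularForm
open UpperHalfPlane hiding I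
open Matrix.SpecialLinearGroup
open scoped Manifold Real MatrixGroups
open ModularCurve ModularCurve.Period
open Fermat.Agent.S21
open ConjAct Pointwise

namespace Fermat.Agent.S41.ES

open Fermat.Agent.Gateway.HeckeCohPeriod (slash_two_apply_of_det_pos)

section Linear

variable {N N' : ℕ} {β : GL (Fin 2) ℝ} {ι : Gamma0 N' →* Gamma0 N}

theorem det_mul_mapGL_pos (hβ : 0 < β.val.det) (x : SL(2, ℤ)) :
    0 < (β * mapGL ℝ x : GL (Fin 2) ℝ).val.det := by
  rw [Matrix.GeneralLinearGroup.coe_mul, Matrix.det_mul, val_det_mapGL, mul_one]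
  exact hβ

theorem trAlong_add (hι : IsConjBy β ι) [ι.range.FiniteIndex] (g₁ g₂ : CuspForm (Gamma0 N') 2) :
    trAlong β ι hι (g₁ + g₂) = trAlong β ι hι g₁ + trAlong β ι hι g₂ := by
  ext τ
  let _ : Fintype (Gamma0 N ⧸ ι.range) := Subgroup.fintypeQuotientOfFiniteIndex
  have hr : Function.Bijective
      (fun i : Gamma0 N ⧸ ι.range => ((Quotient.out i : Gamma0 N) : Gamma0 N ⧸ ι.range)) := by
    have : (fun i : Gamma0 N ⧸ ι.range => ((Quotient.out i : Gamma0 N) : Gamma0 N ⧸ ι.range))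
        = id := funext fun i => Quotient.out_eq' i
    rw [this]
    exact Function.bijective_id
  rw [add_apply, trAlong_apply hι _ _ hr τ, trAlong_apply hι _ _ hr τ,
    trAlong_apply hι _ _ hr τ, ← Finset.sum_add_distrib]
  refine Finset.sum_congr rfl fun i _ => ?_
  rw [FunLike.coe_add, SlashAction.add_slash, Pi.add_apply]

theorem trAlong_smul (hβ : 0 < β.val.det) (hι : IsConjBy β ι) [ι.range.FiniteIndex] (c : ℂ)
    (g : CuspForm (Gamma0 N') 2) :
    trAlong β ι hι (c • g) = c • trAlong β ι hι g := by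
  ext τ
  let _ : Fintype (Gamma0 N ⧸ ι.range) := Subgroup.fintypeQuotientOfFiniteIndex
  have hr : Function.Bijective
      (fun i : Gamma0 N ⧸ ι.range => ((Quotient.out i : Gamma0 N) : Gamma0 N ⧸ ι.range)) := by
    have : (fun i : Gamma0 N ⧸ ι.range => ((Quotient.out i : Gamma0 N) : Gamma0 N ⧸ ι.range))
        = id := funext fun i => Quotient.out_eq' i
    rw [this]
    exact Function.bijective_id
  rw [smul_apply, trAlong_apply hι _ _ hr τ, trAlong_apply hι _ _ hr τ, smul_eq_mul,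
    Finset.mul_sum]
  refine Finset.sum_congr rfl fun i _ => ?_
  rw [slash_two_apply_of_det_pos _ (det_mul_mapGL_pos hβ _) τ,
    slash_two_apply_of_det_pos _ (det_mul_mapGL_pos hβ _) τ, smul_apply, smul_eq_mul,
    mul_assoc]

/-- The trace along `ι` as a `ℂ`-linear map. -/
noncomputable def trAlongₗ (hβ : 0 < β.val.det) (hι : IsConjBy β ι) [ι.range.FiniteIndex] :
    CuspForm (Gamma0 N') 2 →ₗ[ℂ] CuspForm (Gamma0 N) 2 where
  toFun := trAlong β ι hι
  map_add' := trAlong_add hι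
  map_smul' := trAlong_smul hβ hι

@[simp] theorem trAlongₗ_apply (hβ : 0 < β.val.det) (hι : IsConjBy β ι) [ι.range.FiniteIndex]
    (g : CuspForm (Gamma0 N') 2) : trAlongₗ hβ hι g = trAlong β ι hι g := rfl

end Linear

section Degeneracy

variable (N q : ℕ) [NeZero q]

/-- The matrix `diag(1, q)` in `GL(2, ℝ)`. -/
noncomputable def diagQ : GL (Fin 2) ℝ :=
  Matrix.GeneralLinearGroup.mkOfDetNeZero !![1, 0; 0, (q : ℝ)] (by
    rw [Matrix.det_fin_two_of]
    simpa using NeZero.ne q)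

theorem coe_diagQ : ((diagQ q : GL (Fin 2) ℝ) : Matrix (Fin 2) (Fin 2) ℝ) = !![1, 0; 0, (q : ℝ)] :=
  rfl

theorem det_diagQ_pos : 0 < (diagQ q : GL (Fin 2) ℝ).val.det := by
  rw [coe_diagQ, Matrix.det_fin_two_of]
  have : (0 : ℝ) < q := by exact_mod_cast Nat.pos_of_ne_zero (NeZero.ne q)
  simpa using this

omit [NeZero q] in
theorem isConjBy_incl : IsConjBy (1 : GL (Fin 2) ℝ) (incl N q) := by
  intro c
  rw [inv_one, one_mul, mul_one, incl_coe]

theorem isConjBy_degConj : IsConjBy (diagQ q) (degConj N q) := by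
  intro c
  have key : mapGL ℝ ((c : Gamma0 (N * q)) : SL(2, ℤ)) * diagQ q
      = diagQ q * mapGL ℝ ((degConj N q c : Gamma0 N) : SL(2, ℤ)) := by
    apply Units.ext
    rw [Units.val_mul, Units.val_mul, coe_diagQ, mapGL_coe_matrix, mapGL_coe_matrix, degConj_coe]
    have h := q_mul_degSL_one_zero N q c
    ext i j
    fin_cases i <;> fin_cases j
    · simp [Matrix.mul_apply, Fin.sum_univ_two]
    · simp [Matrix.mul_apply, Fin.sum_univ_two]
      ring
    · simp [-degSL_one_zero, Matrix.mul_apply, Fin.sum_univ_two]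
      rw [← h]
      push_cast
      rfl
    · simp [Matrix.mul_apply, Fin.sum_univ_two]
      ring
  rw [mul_assoc, key, inv_mul_cancel_left]

variable [NeZero N]

/-- The trace `S₂(Γ₀(N q)) → S₂(Γ₀(N))` along the inclusion `Γ₀(N q) ≤ Γ₀(N)`:
`Tr₁ g = ∑_{δ ∈ Γ₀(N q) \ Γ₀(N)} g ∣[2] δ`. -/
noncomputable def Tr₁ : CuspForm (Gamma0 (N * q)) 2 →ₗ[ℂ] CuspForm (Gamma0 N) 2 :=
  trAlongₗ (β := 1) (by rw [Units.val_one, Matrix.det_one]; exact one_pos) (isConjBy_incl N q)

/-- The trace `S₂(Γ₀(N q)) → S₂(Γ₀(N))` along `degConj`, i.e. the trace of the translate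
`g ∣[2] diag(1, q)` (a cusp form for the range `Γ₀(N) ∩ Γ⁰(q)` of `degConj`):
`Tr₂ g = ∑_{δ ∈ range degConj \ Γ₀(N)} g ∣[2] (diag(1, q) δ)`. -/
noncomputable def Tr₂ : CuspForm (Gamma0 (N * q)) 2 →ₗ[ℂ] CuspForm (Gamma0 N) 2 :=
  trAlongₗ (det_diagQ_pos q) (isConjBy_degConj N q)

/-- `Tr₁` in terms of arbitrary representatives `r i` of the left cosets of `Γ₀(N q)` in `Γ₀(N)`:
`Tr₁ g = ∑ i, g ∣[2] (r i)⁻¹`. -/
theorem Tr₁_apply (g : CuspForm (Gamma0 (N * q)) 2) {R : Type*} [Fintype R] (r : R → Gamma0 N)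
    (hr : Function.Bijective (fun i => (r i : Gamma0 N ⧸ (incl N q).range))) (τ : ℍ) :
    Tr₁ N q g τ = ∑ i, ((⇑g : ℍ → ℂ) ∣[(2 : ℤ)]
      (mapGL ℝ (((r i)⁻¹ : Gamma0 N) : SL(2, ℤ)) : GL (Fin 2) ℝ)) τ := by
  have h := trAlong_apply (isConjBy_incl N q) g r hr τ
  simp only [one_mul] at h
  exact h

/-- `Tr₂` in terms of arbitrary representatives `r i` of the left cosets of the range of `degConj`
in `Γ₀(N)`: `Tr₂ g = ∑ i, g ∣[2] (diag(1, q) (r i)⁻¹)`. -/
theorem Tr₂_apply (g : CuspForm (Gamma0 (N * q)) 2) {R : Type*} [Fintype R] (r : R → Gamma0 N)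
    (hr : Function.Bijective (fun i => (r i : Gamma0 N ⧸ (degConj N q).range))) (τ : ℍ) :
    Tr₂ N q g τ = ∑ i, ((⇑g : ℍ → ℂ) ∣[(2 : ℤ)]
      (diagQ q * mapGL ℝ (((r i)⁻¹ : Gamma0 N) : SL(2, ℤ)) : GL (Fin 2) ℝ)) τ :=
  trAlong_apply (isConjBy_degConj N q) g r hr τ

/-- **(I6b) for the first degeneracy map**: `cor₁ (periodMap g) = periodMap (Tr₁ g)`. -/
theorem cor₁_periodMap (g : CuspForm (Gamma0 (N * q)) 2) :
    cor₁ N q ℂ (periodMap (N * q) g) = periodMap N (Tr₁ N q g) :=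
  corAlong_periodMap (by rw [Units.val_one, Matrix.det_one]; exact one_pos) (isConjBy_incl N q)
    (incl_injective N q) g

/-- **(I6b) for the second degeneracy map**: `cor₂ (periodMap g) = periodMap (Tr₂ g)`. -/
theorem cor₂_periodMap (g : CuspForm (Gamma0 (N * q)) 2) :
    cor₂ N q ℂ (periodMap (N * q) g) = periodMap N (Tr₂ N q g) :=
  corAlong_periodMap (det_diagQ_pos q) (isConjBy_degConj N q) (degConj_injective N q) g

end Degeneracy

end Fermat.Agent.S41.ES
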