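/-
P-S41 block (B3), Eichler-Shimura compatibility of the degeneracy maps, part 4 (helper98).

The corestrictions `cor₁`, `cor₂` commute with the involution `charInvolution` of the additive
characters, and hence `periodHomPair` intertwines `(Tr_i, Tr_i)` with `cor_i`.
-/
import Fermat.Agent.S41.ES.Main

set_option autoImplicit false

open Complex Filter Function Topology CongruenceSubgroup ModularForm
open UpperHalfPlane hiding I
open Matrix.SpecialLinearGroup
open scoped Manifold Real MatrixGroups
open ModularCurve ModularCurve.Period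
open Fermat.Agent.S21

namespace Fermat.Agent.S41.ES

section General

variable {G' G : Type*} [Group G'] [Group G]

/-- The corestriction commutes with a pair of compatible endomorphisms `θ'`, `θ` of `G'`, `G`
when `θ` is an involution. -/
theorem corAlong_comp_involution (j : G' →* G) (hj : Function.Injective j) [j.range.FiniteIndex]
    (A : Type*) [AddCommGroup A] (θ : G →* G) (θ' : G' →* G') (hθ : ∀ x, θ (θ x) = x)
    (hθj : ∀ c, θ (j c) = j (θ' c)) (ψ : Additive G' →+ A) :
    corAlong j hj A (ψ.comp (MonoidHom.toAdditive θ'))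
      = (corAlong j hj A ψ).comp (MonoidHom.toAdditive θ) := by
  refine AddMonoidHom.ext fun ga => ?_
  obtain ⟨g, rfl⟩ : ∃ g : G, Additive.ofMul g = ga := ⟨Additive.toMul ga, rfl⟩
  let _ : Fintype (G ⧸ j.range) := Subgroup.fintypeQuotientOfFiniteIndex
  let r : G ⧸ j.range → G := Quotient.out
  have hr : Function.Bijective (fun i => (r i : G ⧸ j.range)) := by
    have : (fun i => (r i : G ⧸ j.range)) = id := funext fun i => Quotient.out_eq' i
    rw [this]
    exact Function.bijective_id
  have hex : ∀ i : G ⧸ j.range, ∃ c : G', g * r i = r (g • i) * j c := by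
    intro i
    have h1 : ((g * r i : G) : G ⧸ j.range) = ((r (g • i) : G) : G ⧸ j.range) := by
      have h2 : ((r (g • i) : G) : G ⧸ j.range) = g • i := Quotient.out_eq' _
      rw [h2]
      conv_rhs => rw [← Quotient.out_eq' i]
      rfl
    obtain ⟨c, hc⟩ := QuotientGroup.eq.mp h1.symm
    exact ⟨c, by rw [hc]; group⟩
  choose c hc using hex
  -- `θ` preserves the range of `j`
  have hθH : ∀ x ∈ j.range, θ x ∈ j.range := by
    rintro _ ⟨c, rfl⟩
    exact ⟨θ' c, (hθj c).symm⟩
  -- the representatives `θ (r i)`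
  have hr' : Function.Bijective (fun i => ((θ (r i) : G) : G ⧸ j.range)) := by
    constructor
    · intro i i' h
      have h1 : (θ (r i))⁻¹ * θ (r i') ∈ j.range := QuotientGroup.eq.mp h
      have h2 : (r i)⁻¹ * r i' ∈ j.range := by
        have := hθH _ h1
        rwa [map_mul, map_inv, hθ, hθ] at this
      exact hr.1 (QuotientGroup.eq.mpr h2)
    · intro y
      obtain ⟨x, rfl⟩ := QuotientGroup.mk_surjective y
      obtain ⟨i, hi⟩ := hr.2 ((θ x : G) : G ⧸ j.range)
      refine ⟨i, ?_⟩
      have h1 : (r i)⁻¹ * θ x ∈ j.range := QuotientGroup.eq.mp hi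
      have h2 := hθH _ h1
      rw [map_mul, map_inv, hθ] at h2
      exact QuotientGroup.eq.mpr h2
  have h1 := corAlong_apply_of_reps j hj A (ψ.comp (MonoidHom.toAdditive θ')) r hr g
    (fun i => g • i) c hc
  have h2 := corAlong_apply_of_reps j hj A ψ (fun i => θ (r i)) hr' (θ g)
    (fun i => g • i) (fun i => θ' (c i)) (fun i => by
      rw [← map_mul, hc i, map_mul, hθj])
  rw [h1]
  exact h2.symm

end General

section Involution

variable (N q : ℕ) [NeZero q]

omit [NeZero q] in
theorem jConjGamma0_incl (c : Gamma0 (N * q)) :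
    jConjGamma0 N (incl N q c) = incl N q (jConjGamma0 (N * q) c) := rfl

theorem jConjGamma0_degConj (c : Gamma0 (N * q)) :
    jConjGamma0 N (degConj N q c) = degConj N q (jConjGamma0 (N * q) c) := by
  apply Subtype.ext
  rw [jConjGamma0_coe, degConj_coe, degConj_coe]
  ext i j
  fin_cases i <;> fin_cases j
  · show (jConjSL (degSL N q c)) 0 0 = (degSL N q (jConjGamma0 (N * q) c)) 0 0
    rw [degSL_zero_zero, jConjGamma0_coe, jConjSL_coe, jConjSL_coe, jConjMat_apply_zero_zero,
      jConjMat_apply_zero_zero, degSL_zero_zero]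
  · show (jConjSL (degSL N q c)) 0 1 = (degSL N q (jConjGamma0 (N * q) c)) 0 1
    rw [degSL_zero_one, jConjGamma0_coe, jConjSL_coe, jConjSL_coe, jConjMat_apply_zero_one,
      jConjMat_apply_zero_one, degSL_zero_one]
    ring
  · show (jConjSL (degSL N q c)) 1 0 = (degSL N q (jConjGamma0 (N * q) c)) 1 0
    have hq : (q : ℤ) ≠ 0 := by exact_mod_cast NeZero.ne q
    apply mul_left_cancel₀ hq
    rw [q_mul_degSL_one_zero, jConjGamma0_coe, jConjSL_coe, jConjSL_coe, jConjMat_apply_one_zero,
      jConjMat_apply_one_zero, mul_neg, q_mul_degSL_one_zero]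
  · show (jConjSL (degSL N q c)) 1 1 = (degSL N q (jConjGamma0 (N * q) c)) 1 1
    rw [degSL_one_one, jConjGamma0_coe, jConjSL_coe, jConjSL_coe, jConjMat_apply_one_one,
      jConjMat_apply_one_one, degSL_one_one]

variable [NeZero N] (R : Type*) [Semiring R] (A : Type*) [AddCommGroup A] [Module R A]

/-- **(I1e) for `cor₁`.** -/
theorem cor₁_charInvolution (ψ : Additive (Gamma0 (N * q)) →+ A) :
    cor₁ N q A (charInvolution (N * q) R A ψ) = charInvolution N R A (cor₁ N q A ψ) :=
  corAlong_comp_involution (incl N q) (incl_injective N q) A (jConjGamma0 N)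
    (jConjGamma0 (N * q)) (jConjGamma0_jConjGamma0 N) (jConjGamma0_incl N q) ψ

/-- **(I1e) for `cor₂`.** -/
theorem cor₂_charInvolution (ψ : Additive (Gamma0 (N * q)) →+ A) :
    cor₂ N q A (charInvolution (N * q) R A ψ) = charInvolution N R A (cor₂ N q A ψ) :=
  corAlong_comp_involution (degConj N q) (degConj_injective N q) A (jConjGamma0 N)
    (jConjGamma0 (N * q)) (jConjGamma0_jConjGamma0 N) (jConjGamma0_degConj N q) ψ

end Involution

section Pair

variable (N q : ℕ) [NeZero q] [NeZero N]

/-- **(I6b), pair form, first degeneracy map.** -/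
theorem cor₁_periodHomPair (f g : CuspForm (Gamma0 (N * q)) 2) :
    cor₁ N q ℂ (periodHomPair (N * q) (f, g)) = periodHomPair N (Tr₁ N q f, Tr₁ N q g) := by
  rw [Glue.periodHomPair_apply (N * q) (existsPeriodMapLinear (N * q)),
    Glue.periodHomPair_apply N (existsPeriodMapLinear N), map_add, map_add, map_sub,
    cor₁_charInvolution N q ℂ ℂ, cor₁_charInvolution N q ℂ ℂ, cor₁_periodMap, cor₁_periodMap]

/-- **(I6b), pair form, second degeneracy map.** -/
theorem cor₂_periodHomPair (f g : CuspForm (Gamma0 (N * q)) 2) :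
    cor₂ N q ℂ (periodHomPair (N * q) (f, g)) = periodHomPair N (Tr₂ N q f, Tr₂ N q g) := by
  rw [Glue.periodHomPair_apply (N * q) (existsPeriodMapLinear (N * q)),
    Glue.periodHomPair_apply N (existsPeriodMapLinear N), map_add, map_add, map_sub,
    cor₂_charInvolution N q ℂ ℂ, cor₂_charInvolution N q ℂ ℂ, cor₂_periodMap, cor₂_periodMap]

end Pair

end Fermat.Agent.S41.ES
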