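/-
P-S41 block (B3), part 5 (helper98): **THEOREM F** (consumer theorem (I6)).

A nonzero class `x ∈ H(N q; ℂ)` killed by both corestrictions and which is a simultaneous
eigenvector of the `T_l`, `l ∈ 𝓛`, produces a normalized eigenform of level `N q`, new at `q`,
with the same eigenvalues.  The forms side input (I6a) (block B1) enters as the hypothesis
`FormsConsumer N q`.
-/
import Fermat.Agent.S41.ES.Pair
import Fermat.Agent.S21
import Fermat.Agent.Gateway.A2.Final
import Fermat.Prelude.Def_FreyPackage_LevelRaising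

set_option autoImplicit false

open Complex Filter Function Topology CongruenceSubgroup ModularForm
open UpperHalfPlane hiding I
open Matrix.SpecialLinearGroup
open scoped Manifold Real MatrixGroups
open ModularCurve ModularCurve.Period
open Fermat.Agent.S21
open Fermat.Agent.Gateway.A2 Fermat.Agent.Gateway.HeckeCoh Fermat.Agent.Gateway.HeckeCohPeriod

namespace Fermat.Agent.S41.ES

variable (N q : ℕ) [NeZero q] [NeZero N]

/-- The consumer theorem (I6a) of the forms side (block B1), as a proposition: a nonzero weight two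
cusp form of level `N q` in the kernel of both traces which is an eigenvector of the `T_l`,
`l ∈ 𝓛`, gives a normalized eigenform with the same eigenvalues and `a_q ^ 2 = 1`. -/
def FormsConsumer : Prop :=
  ∀ (𝓛 : Set ℕ) (c : ℕ → ℂ) (g0 : CuspForm (Gamma0 (N * q)) 2), g0 ≠ 0 →
    Tr₁ N q g0 = 0 → Tr₂ N q g0 = 0 →
    (∀ (l : ℕ) (hl : l.Prime) (hlN : ¬ l ∣ N * q), l ∈ 𝓛 →
      CuspForm.heckeTLin 2 hl hlN g0 = c l • g0) →
    ∃ g : CuspForm (Gamma0 (N * q)) 2, g.IsNormalizedEigenform ∧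
      (∀ l : ℕ, l.Prime → ¬ l ∣ N * q → l ∈ 𝓛 → ModularFormClass.qCoeff g l = c l) ∧
      ModularFormClass.qCoeff g q ^ 2 = 1

/-- Every class in `H(M; ℂ)` is a `periodHomPair`. -/
theorem exists_periodHomPair_eq (M : ℕ) [NeZero M] (x : Additive (Gamma0 M) →+ ℂ)
    (hx : x ∈ homPE ℤ (Gamma0 M) ℂ) :
    ∃ fg : CuspForm (Gamma0 M) 2 × CuspForm (Gamma0 M) 2, periodHomPair M fg = x := by
  have hx' : x ∈ homPE ℂ (Gamma0 M) ℂ := hx
  rw [Count.homPE_complex_eq, ← (Fermat.Agent.S21.result M).2] at hx'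
  exact hx'

/-- **THEOREM F (I6).** -/
theorem theoremF (hB1 : FormsConsumer N q) (𝓛 : Set ℕ) (c : ℕ → ℂ)
    (x : Additive (Gamma0 (N * q)) →+ ℂ) (hx : x ∈ homPE ℤ (Gamma0 (N * q)) ℂ) (hx0 : x ≠ 0)
    (h1 : cor₁ N q ℂ x = 0) (h2 : cor₂ N q ℂ x = 0)
    (heig : ∀ (l : ℕ) [Fact l.Prime] (hlN : ¬ l ∣ N * q), l ∈ 𝓛 →
      heckeHom (N * q) l hlN ℂ x = c l • x) :
    ∃ g : CuspForm (Gamma0 (N * q)) 2, g.IsNormalizedEigenform ∧
      (∀ l : ℕ, l.Prime → ¬ l ∣ N * q → l ∈ 𝓛 → ModularFormClass.qCoeff g l = c l) ∧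
      g.IsNewAt q := by
  obtain ⟨⟨f, g⟩, rfl⟩ := exists_periodHomPair_eq (N * q) x hx
  have hinjN := (Fermat.Agent.S21.result N).1
  have hinjNq := (Fermat.Agent.S21.result (N * q)).1
  -- both traces vanish
  have hT1 : Tr₁ N q f = 0 ∧ Tr₁ N q g = 0 := by
    rw [cor₁_periodHomPair] at h1
    have := hinjN (h1.trans (map_zero (periodHomPair N)).symm)
    exact Prod.mk.inj this
  have hT2 : Tr₂ N q f = 0 ∧ Tr₂ N q g = 0 := by
    rw [cor₂_periodHomPair] at h2
    have := hinjN (h2.trans (map_zero (periodHomPair N)).symm)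
    exact Prod.mk.inj this
  -- both components are eigenvectors
  have hE : ∀ (l : ℕ) (hl : l.Prime) (hlN : ¬ l ∣ N * q), l ∈ 𝓛 →
      CuspForm.heckeTLin 2 hl hlN f = c l • f ∧ CuspForm.heckeTLin 2 hl hlN g = c l • g := by
    intro l hl hlN hl𝓛
    have : Fact l.Prime := ⟨hl⟩
    have h3 := periodHomPair_heckeTLin (N * q) l hlN hl f g
    rw [heig l hlN hl𝓛, ← map_smul] at h3
    exact Prod.mk.inj (hinjNq h3)
  -- one of the components is nonzero
  have hne : f ≠ 0 ∨ g ≠ 0 := by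
    by_contra hcon
    push Not at hcon
    apply hx0
    rw [hcon.1, hcon.2]
    exact map_zero (periodHomPair (N * q))
  rcases hne with hf | hg
  · exact hB1 𝓛 c f hf hT1.1 hT2.1 fun l hl hlN hl𝓛 => (hE l hl hlN hl𝓛).1
  · exact hB1 𝓛 c g hg hT1.2 hT2.2 fun l hl hlN hl𝓛 => (hE l hl hlN hl𝓛).2

end Fermat.Agent.S41.ES
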