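/-
P-S41 blocks (B1)/(B3), part 6 (helper98): reduction of the forms side consumer (I6a) to the single
statement **(KEY)** `Tr₁ g = 0 → Tr₂ g = 0 → U_q (U_q g) = g`, and THEOREM F in the final shape
consumed by the assembly.

No stability of the `q`-new subspace under Hecke operators is needed: the subspace
`{g | U_q (U_q g) = g ∧ ∀ l ∈ 𝓛, T_l g = c l • g}` is stable under the full Hecke family by
commutativity alone.
-/
import Fermat.Agent.S41.ES.TheoremF
import Fermat.Agent.S21.UpperBoundS2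
import Fermat.Agent.S49.CommonEigenvector
import Fermat.Agent.S49.Eigenform
import Fermat.Prelude.Thm_CuspForm_heckeTLin_comm
import Fermat.Prelude.Thm_CuspForm_heckeTLin_heckeULin_comm
import Fermat.Prelude.Thm_CuspForm_heckeULin_comm

set_option autoImplicit false

open CongruenceSubgroup ModularForm
open scoped MatrixGroups
open ModularCurve ModularCurve.Period
open Fermat.Agent.Gateway.A2 Fermat.Agent.Gateway.HeckeCoh

namespace Fermat.Agent.S41.ES

section Family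

variable (M : ℕ) [NeZero M]

/-- The full Hecke family at level `M`, indexed by the primes: `U_l` for `l ∣ M`, `T_l` for
`l ∤ M`. -/
noncomputable def heckeFam (l : Nat.Primes) : Module.End ℂ (CuspForm (Gamma0 M) 2) :=
  if h : (l : ℕ) ∣ M then CuspForm.heckeULin 2 h else CuspForm.heckeTLin 2 l.2 h

theorem heckeFam_of_dvd {l : ℕ} (hl : l.Prime) (h : l ∣ M) :
    heckeFam M (⟨l, hl⟩ : Nat.Primes) = CuspForm.heckeULin 2 h := dif_pos h

theorem heckeFam_of_not_dvd {l : ℕ} (hl : l.Prime) (h : ¬ l ∣ M) :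
    heckeFam M (⟨l, hl⟩ : Nat.Primes) = CuspForm.heckeTLin 2 hl h := dif_neg h

theorem heckeFam_comm (l l' : Nat.Primes) :
    heckeFam M l * heckeFam M l' = heckeFam M l' * heckeFam M l := by
  unfold heckeFam
  split_ifs with h h' h'
  · exact (CuspForm.heckeULin_comm 2 h h').eq
  · exact (CuspForm.heckeTLin_heckeULin_comm 2 l'.2 h' h).eq.symm
  · exact (CuspForm.heckeTLin_heckeULin_comm 2 l.2 h h').eq
  · exact (CuspForm.heckeTLin_comm 2 l.2 h l'.2 h').eq

theorem heckeFam_comm_apply (l l' : Nat.Primes) (g : CuspForm (Gamma0 M) 2) :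
    heckeFam M l (heckeFam M l' g) = heckeFam M l' (heckeFam M l g) :=
  LinearMap.congr_fun (heckeFam_comm M l l') g

/-- A nonzero cusp form with `U_q (U_q g0) = g0` which is an eigenvector of the `T_l`, `l ∈ 𝓛`,
gives a normalized eigenform with the same `T_l`-eigenvalues and `a_q ^ 2 = 1`. -/
theorem exists_eigenform_of_sq_eq {q : ℕ} (hq : q.Prime) (hqM : q ∣ M) (𝓛 : Set ℕ) (c : ℕ → ℂ)
    (g0 : CuspForm (Gamma0 M) 2) (hg0 : g0 ≠ 0)
    (hU : CuspForm.heckeULin 2 hqM (CuspForm.heckeULin 2 hqM g0) = g0)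
    (hT : ∀ (l : ℕ) (hl : l.Prime) (hlM : ¬ l ∣ M), l ∈ 𝓛 →
      CuspForm.heckeTLin 2 hl hlM g0 = c l • g0) :
    ∃ g : CuspForm (Gamma0 M) 2, g.IsNormalizedEigenform ∧
      (∀ l : ℕ, l.Prime → ¬ l ∣ M → l ∈ 𝓛 → ModularFormClass.qCoeff g l = c l) ∧
      ModularFormClass.qCoeff g q ^ 2 = 1 := by
  have : Module.Finite ℂ (CuspForm (Gamma0 M) 2) := Fermat.Agent.S21.finite_cuspForm_Gamma0_two M
  -- the Hecke stable subspace
  let V : Submodule ℂ (CuspForm (Gamma0 M) 2) :=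
    { carrier := {g | CuspForm.heckeULin 2 hqM (CuspForm.heckeULin 2 hqM g) = g ∧
        ∀ (l : ℕ) (hl : l.Prime) (hlM : ¬ l ∣ M), l ∈ 𝓛 →
          CuspForm.heckeTLin 2 hl hlM g = c l • g}
      zero_mem' := by
        refine ⟨by rw [map_zero, map_zero], fun l hl hlM _ => by rw [map_zero, smul_zero]⟩
      add_mem' := by
        rintro a b ⟨ha1, ha2⟩ ⟨hb1, hb2⟩
        refine ⟨by rw [map_add, map_add, ha1, hb1], fun l hl hlM h => ?_⟩
        rw [map_add, ha2 l hl hlM h, hb2 l hl hlM h, smul_add]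
      smul_mem' := by
        rintro t a ⟨ha1, ha2⟩
        refine ⟨by rw [map_smul, map_smul, ha1], fun l hl hlM h => ?_⟩
        rw [map_smul, ha2 l hl hlM h, smul_comm] }
  have hg0V : g0 ∈ V := ⟨hU, hT⟩
  have hV : V ≠ ⊥ := fun h => hg0 ((Submodule.eq_bot_iff V).mp h g0 hg0V)
  have hstab : ∀ l' : Nat.Primes, ∀ x ∈ V, heckeFam M l' x ∈ V := by
    rintro l' x ⟨hx1, hx2⟩
    refine ⟨?_, fun l hl hlM h => ?_⟩
    · obtain ⟨qP, hqP⟩ : ∃ qP : Nat.Primes, heckeFam M qP = CuspForm.heckeULin 2 hqM :=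
        ⟨⟨q, hq⟩, heckeFam_of_dvd M hq hqM⟩
      rw [← hqP] at hx1 ⊢
      rw [heckeFam_comm_apply M qP l', heckeFam_comm_apply M qP l', hx1]
    · obtain ⟨lP, hlP⟩ : ∃ lP : Nat.Primes, heckeFam M lP = CuspForm.heckeTLin 2 hl hlM :=
        ⟨⟨l, hl⟩, heckeFam_of_not_dvd M hl hlM⟩
      have hx3 := hx2 l hl hlM h
      rw [← hlP] at hx3 ⊢
      rw [heckeFam_comm_apply M lP l', hx3, map_smul]
  obtain ⟨w, hwV, hw0, hw⟩ := Fermat.Agent.S49.Lifting.exists_common_eigenvector_in_submodule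
    (heckeFam M) (heckeFam_comm M) _ V rfl hV hstab
  choose lam hlam using hw
  let lam' : ℕ → ℂ := fun n => if h : n.Prime then lam (⟨n, h⟩ : Nat.Primes) else 0
  have hlam' : ∀ (n : ℕ) (h : n.Prime), lam' n = lam (⟨n, h⟩ : Nat.Primes) := fun n h => dif_pos h
  obtain ⟨g, hg, hgc⟩ := Fermat.Agent.S49.Eigenform.exists_normalizedEigenform_of_eigenvector w hw0
    lam'
    (fun l hl hlM => by rw [hlam' l hl, ← hlam (⟨l, hl⟩ : Nat.Primes), heckeFam_of_not_dvd M hl hlM])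
    (fun l hl hlM => by rw [hlam' l hl, ← hlam (⟨l, hl⟩ : Nat.Primes), heckeFam_of_dvd M hl hlM])
  refine ⟨g, hg, fun l hl hlM h => ?_, ?_⟩
  · rw [hgc l hl, hlam' l hl]
    have h1 := hlam (⟨l, hl⟩ : Nat.Primes)
    rw [heckeFam_of_not_dvd M hl hlM, hwV.2 l hl hlM h] at h1
    have h2 : (c l - lam (⟨l, hl⟩ : Nat.Primes)) • w = 0 := by rw [sub_smul, h1, sub_self]
    rcases smul_eq_zero.mp h2 with h3 | h3
    · exact (sub_eq_zero.mp h3).symm
    · exact absurd h3 hw0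
  · rw [hgc q hq, hlam' q hq]
    have h1 := hlam (⟨q, hq⟩ : Nat.Primes)
    rw [heckeFam_of_dvd M hq hqM] at h1
    have h2 := hwV.1
    rw [h1, map_smul, h1, smul_smul] at h2
    have h3 : (lam (⟨q, hq⟩ : Nat.Primes) * lam (⟨q, hq⟩ : Nat.Primes) - 1) • w = 0 := by rw [sub_smul, h2, one_smul, sub_self]
    rcases smul_eq_zero.mp h3 with h4 | h4
    · rw [sq]
      exact sub_eq_zero.mp h4
    · exact absurd h4 hw0

end Family

section Key

variable (N q : ℕ) [NeZero q] [NeZero N]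

/-- **(KEY)**, the only forms side input: on the kernel of both traces `U_q` is an involution. -/
def TraceKey : Prop :=
  ∀ g : CuspForm (Gamma0 (N * q)) 2, Tr₁ N q g = 0 → Tr₂ N q g = 0 →
    CuspForm.heckeULin 2 (Dvd.intro_left N rfl : q ∣ N * q)
      (CuspForm.heckeULin 2 (Dvd.intro_left N rfl : q ∣ N * q) g) = g

/-- (I6a) from (KEY). -/
theorem formsConsumer_of_key (hq : q.Prime) (hkey : TraceKey N q) : FormsConsumer N q := by
  intro 𝓛 c g0 hg0 h1 h2 hT
  exact exists_eigenform_of_sq_eq (N * q) hq (Dvd.intro_left N rfl) 𝓛 c g0 hg0 (hkey g0 h1 h2) hT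

/-- **THEOREM F** in the shape consumed by the final assembly, from (KEY). -/
theorem exists_eigenform_of_class_of_key (hq : q.Prime) (hkey : TraceKey N q) (P : ℕ → Prop)
    (c : ℕ → ℂ) (x : Additive (Gamma0 (N * q)) →+ ℂ) (hx : x ∈ homPE ℂ (Gamma0 (N * q)) ℂ)
    (hx0 : x ≠ 0) (h1 : cor₁ N q ℂ x = 0) (h2 : cor₂ N q ℂ x = 0)
    (hT : ∀ (l : ℕ) (hl : l.Prime) (hlNq : ¬ l ∣ N * q), P l →
      (haveI := Fact.mk hl; heckeHom (N * q) l hlNq ℂ x) = c l • x) :
    ∃ g : CuspForm (Gamma0 (N * q)) 2, g.IsNormalizedEigenform ∧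
      (∀ l : ℕ, l.Prime → ¬ l ∣ N * q → P l → ModularFormClass.qCoeff g l = c l) ∧
      ModularFormClass.qCoeff g q ^ 2 = 1 := by
  refine theoremF N q (formsConsumer_of_key N q hq hkey) {l | P l} c x hx hx0 h1 h2 ?_
  intro l hlF hlNq hl
  have := hT l hlF.out hlNq hl
  exact this

end Key

end Fermat.Agent.S41.ES
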